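import Fermat.Agent.S13.Ladder

/-!
# S58 / Loc : torsion points of order prime to the residue characteristic are integral

`𝒜` a valuation subring of a field `K`, `W` a Weierstrass curve with coefficients in `𝒜` (NO hypothesis
on the discriminant), `m` a unit of `𝒜`.  A nonzero point `(x, y)` of `W(K)` with `m • (x, y) = 0` has
`x, y ∈ 𝒜`.  Shared by the blocks LOCG (good reduction) and LOCM (multiplicative reduction).
-/

set_option autoImplicit false

namespace Fermat.Agent.S58.Loc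

open WeierstrassCurve WeierstrassCurve.Affine Polynomial Fermat.Agent.S13 Fermat.Agent.S13.Ladder

variable {K : Type*} [Field K]

/-- the `m`-torsion subgroup. -/
def tors [DecidableEq K] (WK : Affine K) (m : ℕ) : AddSubgroup WK.Point :=
  (nsmulAddMonoidHom m : WK.Point →+ WK.Point).ker

theorem mem_tors [DecidableEq K] {WK : Affine K} {m : ℕ} {P : WK.Point} :
    P ∈ tors WK m ↔ m • P = 0 := Iff.rfl

variable (𝒜 : ValuationSubring K)

/-- **Leaf I1.** A root in `K` of a polynomial over `𝒜` whose leading coefficient is a unit of `𝒜` lies in `𝒜`.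
PROOF. `u := p.leadingCoeff` is a unit, `q := C ↑u⁻¹ * p` is monic (`Polynomial.monic_C_mul_of_mul_leadingCoeff_eq_one` or
`Polynomial.Monic` by `leadingCoeff_mul`...), `eval₂ 𝒜.subtype x q = 0`, so `IsIntegral 𝒜 x`;
`IsIntegrallyClosed.isIntegral_iff` (as in `GAL/INJ/ResAlgClosed.lean`). -/
theorem mem_of_root (p : (↥𝒜)[X]) (hp : IsUnit p.leadingCoeff) {x : K}
    (hx : (p.map 𝒜.subtype).eval x = 0) : x ∈ 𝒜 := by
  obtain ⟨u, hu⟩ := hp
  have hmonic : (C (↑u⁻¹ : ↥𝒜) * p).Monic :=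
    Polynomial.monic_C_mul_of_mul_leadingCoeff_eq_one (by rw [← hu]; exact u.inv_mul)
  have h0 : eval₂ (algebraMap ↥𝒜 K) x p = 0 := by
    rw [← eval_map]
    exact hx
  have hint : IsIntegral ↥𝒜 x := ⟨_, hmonic, by rw [eval₂_mul, h0, mul_zero]⟩
  obtain ⟨y, hy⟩ := IsIntegrallyClosed.isIntegral_iff.1 hint
  rw [← hy]
  exact y.2

variable (W : WeierstrassCurve ↥𝒜)

/-- **Leaf I2.** `y` is a root of the monic polynomial `Y² + (a₁ x + a₃) Y - (x³ + a₂ x² + a₄ x + a₆)` over `𝒜`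
(`equation_iff`, `mem_of_root` with `p = X ^ 2 + C (a₁ x + a₃) * X - C (…)`, or directly `IsIntegral`). -/
theorem y_mem {x y : K} (h : (W.map 𝒜.subtype).toAffine.Equation x y) (hx : x ∈ 𝒜) : y ∈ 𝒜 := by
  obtain ⟨x', hx'⟩ : ∃ x' : ↥𝒜, (x' : K) = x := ⟨⟨x, hx⟩, rfl⟩
  have hmonic : (X ^ 2 + (C (W.a₁ * x' + W.a₃) * X +
      C (-(x' ^ 3 + W.a₂ * x' ^ 2 + W.a₄ * x' + W.a₆))) : (↥𝒜)[X]).Monic :=
    monic_X_pow_add (lt_of_le_of_lt degree_linear_le (by norm_num))
  refine mem_of_root 𝒜 _ (by rw [hmonic.leadingCoeff]; exact isUnit_one) (x := y) ?_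
  rw [equation_iff] at h
  simp only [WeierstrassCurve.map_a₁, WeierstrassCurve.map_a₂, WeierstrassCurve.map_a₃,
    WeierstrassCurve.map_a₄, WeierstrassCurve.map_a₆] at h
  simp only [Polynomial.map_add, Polynomial.map_mul, Polynomial.map_pow, Polynomial.map_X,
    Polynomial.map_C, Polynomial.map_neg, eval_add, eval_mul, eval_pow, eval_X, eval_C, eval_neg,
    map_add, map_mul, map_neg, map_pow]
  have hxx : 𝒜.subtype x' = x := hx'
  rw [hxx]
  linear_combination h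

variable [DecidableEq K]

/-- **Leaf I3.** `x`-coordinates of `m`-torsion points are integral.
PROOF. `p := ladZ W m : 𝒜[X]`; `p.map 𝒜.subtype = ladZ (W.map 𝒜.subtype) m` (`ladZ_map`); `ladZ_eval_eq_zero_iff (Point.some_ne_zero _) m`
and `xc_some` give the root; `leadingCoeff_ladZ W` (needs `(m : 𝒜) ^ 2 ≠ 0`) `= (m : 𝒜) ^ 2`, a unit of `𝒜` because
`𝒜.valuation (m : K) = 1` (`ValuationSubring.valuation_eq_one_iff`, `IsUnit.pow`). -/
theorem x_mem (m : ℕ) (hm : 𝒜.valuation (m : K) = 1) {x y : K}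
    (h : (W.map 𝒜.subtype).toAffine.Nonsingular x y) (hP : m • Point.some x y h = 0) : x ∈ 𝒜 := by
  have hu : IsUnit ((m : ℕ) : ↥𝒜) := by
    refine (ValuationSubring.valuation_eq_one_iff 𝒜 _).2 ?_
    simpa using hm
  have hu2 : IsUnit (((m : ℕ) : ↥𝒜) ^ 2) := hu.pow 2
  refine mem_of_root 𝒜 (ladZ W m) (by rw [leadingCoeff_ladZ W hu2.ne_zero]; exact hu2) ?_
  rw [ladZ_map]
  have h1 := (ladZ_eval_eq_zero_iff (W := (W.map 𝒜.subtype).toAffine)
    (P := Point.some x y h) (Point.some_ne_zero _) m).2 hP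
  rwa [xc_some] at h1

/-- **(G1)** torsion points of order prime to the residue characteristic are integral. -/
theorem integral_of_torsion (m : ℕ) (hm : 𝒜.valuation (m : K) = 1) {x y : K}
    (h : (W.map 𝒜.subtype).toAffine.Nonsingular x y) (hP : m • Point.some x y h = 0) :
    x ∈ 𝒜 ∧ y ∈ 𝒜 :=
  ⟨x_mem 𝒜 W m hm h hP, y_mem 𝒜 W h.1 (x_mem 𝒜 W m hm h hP)⟩

/-- the same for an arbitrary nonzero point of `tors`, in terms of `xc`. -/
theorem xc_mem (m : ℕ) (hm : 𝒜.valuation (m : K) = 1) (P : (W.map 𝒜.subtype).toAffine.Point)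
    (hP : m • P = 0) : xc P ∈ 𝒜 := by
  rcases P with _ | ⟨x, y, h⟩
  · exact 𝒜.zero_mem
  · exact x_mem 𝒜 W m hm h hP

end Fermat.Agent.S58.Loc
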